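import Mathlib.Data.Nat.Factorization.Basic
import Mathlib.Tactic

/-!
# Halving by an odd prime

Among the numbers whose unit part at `p` lies in one half of the residues no sum gains in `p`, and
among three numbers some sum gains at an odd prime.
-/

set_option autoImplicit false

namespace FA.SumsPrimeFactors

/-- The sum `a + b` has no more factors `p` than the common part of `a` and `b`. -/
def Tame (p a b : ℕ) : Prop :=
  (a + b).factorization p ≤ min (a.factorization p) (b.factorization p)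

theorem tame_symm {p a b : ℕ} (h : Tame p a b) : Tame p b a := by
  rwa [Tame, add_comm, min_comm]

theorem tame_of_half {p a b : ℕ} (hp : p.Prime) (ha : a ≠ 0) (hb : b ≠ 0)
    (h : (a / p ^ a.factorization p) % p ≤ p / 2 ↔ (b / p ^ b.factorization p) % p ≤ p / 2)
    (h2 : p ≠ 2) : Tame p a b := by
  wlog hle : a.factorization p ≤ b.factorization p generalizing a b
  · exact tame_symm (this hb ha h.symm (le_of_not_ge hle))
  rw [Tame, min_eq_left hle]
  by_contra hlt
  have hdvd : p ^ (a.factorization p + 1) ∣ a + b :=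
    (pow_dvd_pow p (by omega)).trans (Nat.ordProj_dvd (a + b) p)
  rcases lt_or_eq_of_le hle with hl | he
  · exact Nat.pow_succ_factorization_not_dvd ha hp
      ((Nat.dvd_add_left ((pow_dvd_pow p hl).trans (Nat.ordProj_dvd b p))).1 hdvd)
  · have hu : p ∣ a / p ^ a.factorization p + b / p ^ a.factorization p := by
      refine Nat.dvd_of_mul_dvd_mul_left (pow_pos hp.pos (a.factorization p)) ?_
      rw [mul_add, Nat.mul_div_cancel' (Nat.ordProj_dvd a p),
        Nat.mul_div_cancel' (he ▸ Nat.ordProj_dvd b p), ← pow_succ]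
      exact hdvd
    rw [← he] at h
    have h1 : (a / p ^ a.factorization p) % p ≠ 0 := fun e =>
      Nat.not_dvd_ordCompl hp ha (Nat.dvd_of_mod_eq_zero e)
    have h1' : (b / p ^ a.factorization p) % p ≠ 0 := fun e =>
      Nat.not_dvd_ordCompl hp hb (Nat.dvd_of_mod_eq_zero (by rw [← he]; exact e))
    rw [Nat.dvd_iff_mod_eq_zero, Nat.add_mod] at hu
    obtain ⟨k, hk⟩ := hp.odd_of_ne_two h2
    have ha' := Nat.mod_lt (a / p ^ a.factorization p) hp.pos
    have hb' := Nat.mod_lt (b / p ^ a.factorization p) hp.pos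
    rcases Nat.lt_or_ge ((a / p ^ a.factorization p) % p + (b / p ^ a.factorization p) % p) p
      with hs | hs
    · rw [Nat.mod_eq_of_lt hs] at hu; omega
    · rw [Nat.mod_eq_sub_mod hs, Nat.mod_eq_of_lt (by omega)] at hu; omega

theorem exists_tame_subset {A : Finset ℕ} (hA : ∀ a ∈ A, a ≠ 0) (P : Finset ℕ) :
    ∃ B ⊆ A, A.card ≤ 2 ^ P.card * B.card ∧
      ∀ p ∈ P, p.Prime → p ≠ 2 → ∀ a ∈ B, ∀ b ∈ B, Tame p a b := by
  induction P using Finset.induction_on with
  | empty => exact ⟨A, subset_rfl, by simp, by simp⟩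
  | @insert q P hq ih =>
    obtain ⟨B, hBA, hcard, hB⟩ := ih
    set B₁ := B.filter fun a => (a / q ^ a.factorization q) % q ≤ q / 2
    set B₂ := B.filter fun a => ¬(a / q ^ a.factorization q) % q ≤ q / 2
    have hs : B₁.card + B₂.card = B.card := Finset.card_filter_add_card_filter_not _
    have key : ∀ C ⊆ B, (q.Prime → q ≠ 2 → ∀ a ∈ C, ∀ b ∈ C, Tame q a b) → B.card ≤ 2 * C.card →
        ∃ B ⊆ A, A.card ≤ 2 ^ (insert q P).card * B.card ∧
          ∀ p ∈ insert q P, p.Prime → p ≠ 2 → ∀ a ∈ B, ∀ b ∈ B, Tame p a b := by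
      intro C hC hCq hCc
      refine ⟨C, hC.trans hBA, ?_, fun p hp hpp hp2 a ha b hb => ?_⟩
      · rw [Finset.card_insert_of_notMem hq, pow_succ, mul_assoc]
        exact hcard.trans (Nat.mul_le_mul_left _ hCc)
      · rcases Finset.mem_insert.1 hp with rfl | hp
        · exact hCq hpp hp2 a ha b hb
        · exact hB p hp hpp hp2 a (hC ha) b (hC hb)
    rcases le_total B₂.card B₁.card with hle | hle
    · exact key B₁ (Finset.filter_subset _ _) (fun hq' hq2 a ha b hb => by
        simp only [B₁, Finset.mem_filter] at ha hb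
        exact tame_of_half hq' (hA a (hBA ha.1)) (hA b (hBA hb.1))
          (iff_of_true ha.2 hb.2) hq2) (by omega)
    · exact key B₂ (Finset.filter_subset _ _) (fun hq' hq2 a ha b hb => by
        simp only [B₂, Finset.mem_filter] at ha hb
        exact tame_of_half hq' (hA a (hBA ha.1)) (hA b (hBA hb.1))
          (iff_of_false ha.2 hb.2) hq2) (by omega)

/-- Two distinct numbers all of whose odd primes are tame have the same number of factors `2`,
two fewer than their sum. -/
theorem two_part {a b : ℕ} (ha : a ≠ 0) (hb : b ≠ 0) (hab : a ≠ b)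
    (h : ∀ p : ℕ, p.Prime → p ≠ 2 → Tame p a b) :
    a.factorization 2 = b.factorization 2 ∧ 2 ^ (a.factorization 2 + 2) ∣ a + b := by
  obtain ⟨A, B, hAB, hA, hB⟩ := Nat.exists_coprime a b
  set d := a.gcd b
  have hd : d ≠ 0 := Nat.gcd_ne_zero_left ha
  have hA0 : A ≠ 0 := by rintro rfl; simp at hA; exact ha hA
  have hB0 : B ≠ 0 := by rintro rfl; simp at hB; exact hb hB
  have hpow : A + B = 2 ^ (A + B).factorization 2 := by
    refine Nat.eq_pow_of_factorization_eq_single (by omega) ?_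
    ext p
    rcases eq_or_ne p 2 with rfl | hp2
    · simp
    rw [Finsupp.single_apply, if_neg hp2.symm]
    by_cases hp : p.Prime
    swap
    · exact Nat.factorization_eq_zero_of_not_prime _ hp
    have ht := h p hp hp2
    rw [Tame, hA, hB, ← add_mul, Nat.factorization_mul (by omega) hd,
      Nat.factorization_mul hA0 hd, Nat.factorization_mul hB0 hd] at ht
    simp only [Finsupp.add_apply] at ht
    by_contra hne
    have hpA : ¬p ∣ A ∨ ¬p ∣ B := by
      by_contra hc
      push Not at hc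
      exact hp.not_dvd_one (hAB ▸ Nat.dvd_gcd hc.1 hc.2)
    rcases hpA with h0 | h0 <;>
      rw [Nat.factorization_eq_zero_of_not_dvd h0] at ht <;> omega
  have h4 : 4 ∣ A + B := by
    rw [hpow]
    refine (by norm_num : (4 : ℕ) ∣ 2 ^ 2).trans (pow_dvd_pow 2 ?_)
    by_contra hlt
    have hne : A ≠ B := fun e => hab (by rw [hA, hB, e])
    have : A + B ≤ 2 ^ 1 := hpow ▸ Nat.pow_le_pow_right two_pos (by omega)
    omega
  have hA2 : ¬2 ∣ A := fun h2 => Nat.prime_two.not_dvd_one
    (hAB ▸ Nat.dvd_gcd h2 ((Nat.dvd_add_right h2).1 ((by norm_num : 2 ∣ 4).trans h4)))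
  have hB2 : ¬2 ∣ B := fun h2 => hA2 ((Nat.dvd_add_left h2).1 ((by norm_num : 2 ∣ 4).trans h4))
  have e : ∀ {C : ℕ}, C ≠ 0 → ¬2 ∣ C → (C * d).factorization 2 = d.factorization 2 := by
    intro C hC hC2
    rw [Nat.factorization_mul hC hd, Finsupp.add_apply, Nat.factorization_eq_zero_of_not_dvd hC2,
      zero_add]
  rw [hA, hB, e hA0 hA2, e hB0 hB2, ← add_mul, add_comm _ 2, pow_add]
  exact ⟨rfl, Nat.mul_dvd_mul h4 (Nat.ordProj_dvd d 2)⟩

/-- Among three numbers some sum gains at an odd prime. -/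
theorem not_all_tame {a b c : ℕ} (ha : a ≠ 0) (hb : b ≠ 0) (hc : c ≠ 0) (hab : a ≠ b)
    (hac : a ≠ c) (hbc : b ≠ c)
    (h : ∀ p : ℕ, p.Prime → p ≠ 2 → Tame p a b ∧ Tame p a c ∧ Tame p b c) : False := by
  obtain ⟨e1, h1⟩ := two_part ha hb hab fun p hp h2 => (h p hp h2).1
  obtain ⟨-, h2⟩ := two_part ha hc hac fun p hp h2 => (h p hp h2).2.1
  obtain ⟨-, h3⟩ := two_part hb hc hbc fun p hp h2 => (h p hp h2).2.2
  rw [← e1] at h3
  have h4 : 2 ^ (a.factorization 2 + 2) ∣ a + a := by
    refine (Nat.dvd_add_left h3).1 ?_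
    rw [show a + a + (b + c) = (a + b) + (a + c) by ring]
    exact dvd_add h1 h2
  exact Nat.pow_succ_factorization_not_dvd ha Nat.prime_two
    (Nat.dvd_of_mul_dvd_mul_right two_pos (by rw [← pow_succ, mul_two]; exact h4))

/-- A set with all pairs tame at every odd prime dividing a sum is small. -/
theorem card_le {A P : Finset ℕ} (hA : ∀ a ∈ A, a ≠ 0)
    (hP : ∀ a ∈ A, ∀ b ∈ A, a ≠ b → ∀ p : ℕ, p.Prime → p ≠ 2 → p ∣ a + b → p ∈ P) :
    A.card ≤ 2 ^ (P.card + 1) := by
  obtain ⟨B, hBA, hcard, hB⟩ := exists_tame_subset hA P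
  suffices hB2 : B.card ≤ 2 by
    rw [pow_succ]
    exact hcard.trans (Nat.mul_le_mul_left _ hB2)
  by_contra hlt
  obtain ⟨a, b, c, ha, hb, hc, hab, hac, hbc⟩ := Finset.two_lt_card_iff.1 (not_le.1 hlt)
  refine not_all_tame (hA a (hBA ha)) (hA b (hBA hb)) (hA c (hBA hc)) hab hac hbc
    fun p hp hp2 => ?_
  have key : ∀ x ∈ B, ∀ y ∈ B, x ≠ y → Tame p x y := fun x hx y hy hxy => by
    by_cases hd : p ∣ x + y
    · exact hB p (hP x (hBA hx) y (hBA hy) hxy p hp hp2 hd) hp hp2 x hx y hy
    · rw [Tame, Nat.factorization_eq_zero_of_not_dvd hd]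
      exact Nat.zero_le _
  exact ⟨key a ha b hb hab, key a ha c hc hac, key b hb c hc hbc⟩

end FA.SumsPrimeFactors
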